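import Mathlib

/-!
# S16 / LV1 / Eis (helper1): the `q`-expansions of `E₄` and `E₆`.
-/

set_option autoImplicit false

open UpperHalfPlane ModularForm ModularFormClass MatrixGroups EisensteinSeries

namespace Fermat.Agent.S16.LV1

/-- `E₄ = 1 + 240 ∑ σ₃(n) qⁿ`. -/
theorem E4_coeff' (n : ℕ) :
    (qExpansion 1 E₄).coeff n = if n = 0 then 1 else 240 * (ArithmeticFunction.sigma 3 n : ℂ) := by
  rw [E_qExpansion_coeff _ ⟨2, rfl⟩]
  norm_num [show bernoulli 4 = -1 / 30 by decide +kernel]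

/-- `E₆ = 1 - 504 ∑ σ₅(n) qⁿ`. -/
theorem E6_coeff' (n : ℕ) :
    (qExpansion 1 E₆).coeff n = if n = 0 then 1 else -504 * (ArithmeticFunction.sigma 5 n : ℂ) := by
  rw [E_qExpansion_coeff _ ⟨3, rfl⟩]
  norm_num [show bernoulli 6 = 1 / 42 by decide +kernel]

end Fermat.Agent.S16.LV1
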