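import Mathlib
import Fermat.Agent.S23.LevelOne
import Fermat.Agent.S16.LV1.Eis
import Fermat.Agent.S16.LV1H.Tau
import Fermat.Agent.S16.LV1H.Small
import Fermat.Agent.S16.LV1H.Sturm

/-!
# S16 / LV1 (owner helper1): level-one facts

* `E4_coeff`, `E6_coeff`: the `q`-expansions of `E₄`, `E₆` (`1 + 240 ∑ σ₃(n) qⁿ`, `1 - 504 ∑ σ₅(n) qⁿ`).
* `tau`, `discriminant_coeff`, `tau_zero`, `tau_one`: the `q`-expansion of `Δ` is integral,
  `Δ = q + …`.
* `weight_two_eq_zero`, `weight_fourteen_eq_zero`, `weight_twelve_eq`: `M₂ = 0`, `S₁₄ = 0`,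
  `S₁₂ = ℂ Δ` for `SL(2, ℤ)` (weights given up to a propositional equality, so that they apply to
  forms of weight `(s : ℤ) * k` produced by `Fermat.Agent.S23.exists_esymm`).
* `sturm_mod`, `levelOneSturm`: the level-one Sturm bound modulo an additive subgroup `J ⊆ ℂ`,
  weights `≡ 0 mod 4`.

`(qExpansion 1 f).coeff n` is definitionally `ModularFormClass.qCoeff f n` of the prelude.
-/

set_option autoImplicit false

open UpperHalfPlane ModularForm ModularFormClass MatrixGroups EisensteinSeries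

namespace Fermat.Agent.S16.LV1

/-- `E₄ = 1 + 240 ∑ σ₃(n) qⁿ`. -/
theorem E4_coeff (n : ℕ) :
    (qExpansion 1 E₄).coeff n = if n = 0 then 1 else 240 * (ArithmeticFunction.sigma 3 n : ℂ) :=
  E4_coeff' n

/-- `E₆ = 1 - 504 ∑ σ₅(n) qⁿ`. -/
theorem E6_coeff (n : ℕ) :
    (qExpansion 1 E₆).coeff n = if n = 0 then 1 else -504 * (ArithmeticFunction.sigma 5 n : ℂ) :=
  E6_coeff' n

/-- Integrality of the `q`-expansion of `Δ`. -/
theorem exists_tau : ∃ t : ℕ → ℤ, ∀ n : ℕ,
    (qExpansion 1 ModularForm.discriminant).coeff n = (t n : ℂ) :=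
  LV1H.exists_tau'

/-- Ramanujan's `τ` function: the `q`-expansion coefficients of `Δ`, as integers. -/
noncomputable def tau (n : ℕ) : ℤ := exists_tau.choose n

theorem discriminant_coeff (n : ℕ) :
    (qExpansion 1 ModularForm.discriminant).coeff n = (tau n : ℂ) :=
  exists_tau.choose_spec n

theorem tau_zero : tau 0 = 0 := by
  have h0 : (qExpansion 1 ModularForm.discriminant).coeff 0 = 0 := by
    simpa using CuspFormClass.qExpansion_coeff_zero CuspForm.discriminant one_pos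
      one_mem_strictPeriods_SL
  rw [discriminant_coeff] at h0
  exact_mod_cast h0

theorem tau_one : tau 1 = 1 := by
  have h1 := ModularForm.discriminant_qExpansion_coeff_one
  rw [discriminant_coeff] at h1
  exact_mod_cast h1

/-- `M₂(SL₂(ℤ)) = 0`. -/
theorem weight_two_eq_zero {k : ℤ} (hk : k = 2) (f : ModularForm 𝒮ℒ k) : f = 0 :=
  LV1H.weight_two_eq_zero' hk f

/-- `S₁₄(SL₂(ℤ)) = 0`. -/
theorem weight_fourteen_eq_zero {k : ℤ} (hk : k = 14) (f : ModularForm 𝒮ℒ k)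
    (h0 : (qExpansion 1 f).coeff 0 = 0) : f = 0 :=
  LV1H.weight_fourteen_eq_zero' hk f h0

/-- `S₁₂(SL₂(ℤ)) = ℂ Δ`. -/
theorem weight_twelve_eq {k : ℤ} (hk : k = 12) (f : ModularForm 𝒮ℒ k)
    (h0 : (qExpansion 1 f).coeff 0 = 0) :
    (∀ z : ℍ, f z = (qExpansion 1 f).coeff 1 * ModularForm.discriminant z) ∧
      ∀ n : ℕ, (qExpansion 1 f).coeff n = (qExpansion 1 f).coeff 1 * (tau n : ℂ) := by
  obtain ⟨h1, h2⟩ := LV1H.weight_twelve_eq' hk f h0
  refine ⟨h1, fun n => ?_⟩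
  rw [← discriminant_coeff]
  conv_lhs => rw [h2]
  rw [PowerSeries.coeff_smul, smul_eq_mul]

/-- Level-one Sturm bound modulo an additive subgroup `J` of `ℂ`, for weights divisible by `4`, in
the form consumed by the block NS (`LevelOneSturm`). -/
theorem levelOneSturm : ∀ (K : ℤ) (G : ModularForm 𝒮ℒ K), (4 : ℤ) ∣ K → ∀ J : AddSubgroup ℂ,
    (∀ i : ℕ, 12 * (i : ℤ) ≤ K → (qExpansion 1 G).coeff i ∈ J) →
    ∀ i : ℕ, (qExpansion 1 G).coeff i ∈ J :=
  fun _ G hK J h i => LV1H.sturm_mod_le J hK G h i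

/-- Level-one Sturm bound modulo an additive subgroup `J` of `ℂ`, for weights divisible by `4`:
if the `q`-coefficients `a_i`, `i ≤ K / 12`, lie in `J`, then all of them do. -/
theorem sturm_mod (J : AddSubgroup ℂ) {K : ℤ} (hK : (4 : ℤ) ∣ K) (F : ModularForm 𝒮ℒ K)
    (h : ∀ i : ℕ, i ≤ K.toNat / 12 → (qExpansion 1 F).coeff i ∈ J) (i : ℕ) :
    (qExpansion 1 F).coeff i ∈ J := by
  refine LV1H.sturm_mod_le J hK F (fun j hj => h j ?_) i
  rw [Nat.le_div_iff_mul_le (by norm_num)]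
  omega

end Fermat.Agent.S16.LV1
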