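import Mathlib

/-!
# S16 / LV1 / Small: `M₂(SL₂(ℤ)) = 0`, `S₁₄(SL₂(ℤ)) = 0`, `S₁₂(SL₂(ℤ)) = ℂ Δ`
(statements frozen by helper1; one worker).

The weight is a variable `k : ℤ` with a hypothesis `hk : k = 2` etc. (start every proof with
`subst hk`), so that the lemmas apply to forms whose weight is only propositionally `2`, `12`, `14`.

Mathlib: `ModularForm.levelOne_weight_two_rank_zero` (+ `rank_zero_iff_forall_zero`),
`CuspForm.discriminantEquiv : CuspForm 𝒮ℒ k ≃ₗ[ℂ] ModularForm 𝒮ℒ (k - 12)`,
`ModularForm.toCuspForm f h0` (for `h0 : (qExpansion 1 f).coeff 0 = 0`),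
`ModularForm.qExpansion_eq_qExpansion_discriminant_mul`, `ModularForm.discriminant_mul_discriminantEquiv`,
`ModularForm.levelOne_weight_zero_const`, `ModularForm.discriminant_qExpansion_coeff_one`,
`ModularForm.qExpansion_smul one_pos one_mem_strictPeriods_SL`, `ModularForm.mcast`
(all in `Mathlib/NumberTheory/ModularForms/LevelOne/{Basic,DimensionFormula}.lean`, `Discriminant.lean`).
-/

set_option autoImplicit false

open UpperHalfPlane ModularForm ModularFormClass MatrixGroups EisensteinSeries

namespace Fermat.Agent.S16.LV1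

namespace SmallAux

/-- A level-one form of weight `12` with vanishing constant term is a multiple of `Δ`. -/
theorem exists_eq_smul_discriminant (f : ModularForm 𝒮ℒ 12)
    (h0 : (qExpansion 1 f).coeff 0 = 0) :
    ∃ c : ℂ, (f : ℍ → ℂ) = c • (ModularForm.discriminant : ℍ → ℂ) := by
  obtain ⟨c, hc⟩ := CuspForm.exists_smul_discriminant_of_weight_eq_twelve (toCuspForm f h0)
  refine ⟨c, ?_⟩
  funext z
  have h1 : (c • CuspForm.discriminant) z = (toCuspForm f h0) z := by rw [hc]
  have h2 : (toCuspForm f h0) z = f z := toCuspForm_apply f h0 z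
  have h3 : (c • CuspForm.discriminant) z = c • ModularForm.discriminant z := rfl
  rw [← h2, ← h1, h3]
  rfl

/-- The `q`-expansion of a multiple of `Δ`. -/
theorem qExpansion_smul_discriminant (c : ℂ) :
    qExpansion 1 (c • (ModularForm.discriminant : ℍ → ℂ)) =
      c • qExpansion 1 ModularForm.discriminant :=
  ModularForm.qExpansion_smul one_pos one_mem_strictPeriods_SL c CuspForm.discriminant

end SmallAux

/-- `M₂(SL₂(ℤ)) = 0`. -/
theorem weight_two_eq_zero' {k : ℤ} (hk : k = 2) (f : ModularForm 𝒮ℒ k) : f = 0 := by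
  subst hk
  exact rank_zero_iff_forall_zero.mp ModularForm.levelOne_weight_two_rank_zero f

/-- `S₁₄(SL₂(ℤ)) = 0`: a level-one form of weight `14` with vanishing constant term is zero
(divide by `Δ`: the quotient has weight `2`). -/
theorem weight_fourteen_eq_zero' {k : ℤ} (hk : k = 14) (f : ModularForm 𝒮ℒ k)
    (h0 : (qExpansion 1 f).coeff 0 = 0) : f = 0 := by
  subst hk
  have hg : CuspForm.discriminantEquiv (toCuspForm f h0) = 0 :=
    weight_two_eq_zero' (by norm_num) _
  have hc : toCuspForm f h0 = 0 := CuspForm.discriminantEquiv.map_eq_zero_iff.mp hg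
  ext z
  have h1 : (toCuspForm f h0) z = f z := toCuspForm_apply f h0 z
  rw [← h1, hc]
  rfl

/-- `S₁₂(SL₂(ℤ)) = ℂ Δ`: a level-one form of weight `12` with vanishing constant term is
`a₁(f) Δ` (divide by `Δ`: the quotient has weight `0`, so it is constant). -/
theorem weight_twelve_eq' {k : ℤ} (hk : k = 12) (f : ModularForm 𝒮ℒ k)
    (h0 : (qExpansion 1 f).coeff 0 = 0) :
    (∀ z : ℍ, f z = (qExpansion 1 f).coeff 1 * ModularForm.discriminant z) ∧
      qExpansion 1 f = (qExpansion 1 f).coeff 1 • qExpansion 1 ModularForm.discriminant := by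
  subst hk
  obtain ⟨c, hc⟩ := SmallAux.exists_eq_smul_discriminant f h0
  have hq : qExpansion 1 f = c • qExpansion 1 ModularForm.discriminant := by
    rw [hc]
    exact SmallAux.qExpansion_smul_discriminant c
  have hc1 : (qExpansion 1 f).coeff 1 = c := by
    rw [hq, PowerSeries.coeff_smul, ModularForm.discriminant_qExpansion_coeff_one, smul_eq_mul,
      mul_one]
  refine ⟨fun z => ?_, ?_⟩
  · rw [hc1]
    have := congrFun hc z
    rw [this]
    rfl
  · rw [hc1]
    exact hq

end Fermat.Agent.S16.LV1
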