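import Mathlib
import Fermat.Agent.S23.LevelOne
import Fermat.Agent.S16.LV1.Eis

/-!
# S16 / LV1 / Tau: the `q`-expansion of `Δ` has integer coefficients
(statement frozen by helper1; one worker).

Proof.  `A = ∑_{n ≥ 1} σ₃(n) qⁿ`, `B = ∑_{n ≥ 1} σ₅(n) qⁿ` in `ℤ⟦q⟧`.  By `E4_coeff'`, `E6_coeff'`
the `q`-expansions of `E₄`, `E₆` are the images of `1 + 240 A`, `1 - 504 B`, and
`1728 Δ = E₄³ - E₆²` (`Fermat.Agent.S23.LevelOneAux.qExpansion_discriminant`).
`(1 + 240 A)³ - (1 - 504 B)² = 144 (5 A + 7 B) + 1728 (100 A² + 8000 A³ - 147 B²)` and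
`12 ∣ 5 σ₃(n) + 7 σ₅(n)` because `12 ∣ 5 d³ + 7 d⁵` for every `d` (`decide` in `ZMod 12`), so
`5 A + 7 B = 12 C` with `C ∈ ℤ⟦q⟧`; hence `Δ = C + 100 A² + 8000 A³ - 147 B²`.
-/

set_option autoImplicit false

open UpperHalfPlane ModularForm ModularFormClass MatrixGroups EisensteinSeries

namespace Fermat.Agent.S16.LV1

namespace TauAux

/-- `A = ∑ σ₃(n) qⁿ` over `ℤ`. -/
noncomputable def A : PowerSeries ℤ :=
  PowerSeries.mk fun n => (ArithmeticFunction.sigma 3 n : ℤ)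

/-- `B = ∑ σ₅(n) qⁿ` over `ℤ`. -/
noncomputable def B : PowerSeries ℤ :=
  PowerSeries.mk fun n => (ArithmeticFunction.sigma 5 n : ℤ)

/-- `C = ∑ ((5 σ₃(n) + 7 σ₅(n)) / 12) qⁿ` over `ℤ`. -/
noncomputable def C : PowerSeries ℤ :=
  PowerSeries.mk fun n =>
    (5 * (ArithmeticFunction.sigma 3 n : ℤ) + 7 * (ArithmeticFunction.sigma 5 n : ℤ)) / 12

/-- The `q`-expansion of `E₄` over `ℤ`. -/
noncomputable def e4 : PowerSeries ℤ :=
  PowerSeries.mk fun n => if n = 0 then 1 else 240 * (ArithmeticFunction.sigma 3 n : ℤ)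

/-- The `q`-expansion of `E₆` over `ℤ`. -/
noncomputable def e6 : PowerSeries ℤ :=
  PowerSeries.mk fun n => if n = 0 then 1 else -504 * (ArithmeticFunction.sigma 5 n : ℤ)

theorem twelve_dvd (d : ℕ) : (12 : ℤ) ∣ 5 * (d : ℤ) ^ 3 + 7 * (d : ℤ) ^ 5 := by
  have h : ∀ x : ZMod 12, 5 * x ^ 3 + 7 * x ^ 5 = 0 := by decide
  have h1 : ((5 * (d : ℤ) ^ 3 + 7 * (d : ℤ) ^ 5 : ℤ) : ZMod 12) = 0 := by
    push_cast
    exact h (d : ZMod 12)
  have h2 := (ZMod.intCast_zmod_eq_zero_iff_dvd _ 12).mp h1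
  exact_mod_cast h2

theorem twelve_dvd_sigma (n : ℕ) :
    (12 : ℤ) ∣ 5 * (ArithmeticFunction.sigma 3 n : ℤ) + 7 * (ArithmeticFunction.sigma 5 n : ℤ) := by
  rw [ArithmeticFunction.sigma_apply, ArithmeticFunction.sigma_apply]
  push_cast
  rw [Finset.mul_sum, Finset.mul_sum, ← Finset.sum_add_distrib]
  exact Finset.dvd_sum fun d _ => twelve_dvd d

theorem e4_eq : e4 = 1 + PowerSeries.C (240 : ℤ) * A := by
  ext n
  rw [e4, A, PowerSeries.coeff_mk, map_add, PowerSeries.coeff_one, PowerSeries.coeff_C_mul,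
    PowerSeries.coeff_mk]
  split_ifs with h
  · subst h; simp
  · simp

theorem e6_eq : e6 = 1 - PowerSeries.C (504 : ℤ) * B := by
  ext n
  rw [e6, B, PowerSeries.coeff_mk, map_sub, PowerSeries.coeff_one, PowerSeries.coeff_C_mul,
    PowerSeries.coeff_mk]
  split_ifs with h
  · subst h; simp
  · simp

theorem five_A_add_seven_B :
    PowerSeries.C (5 : ℤ) * A + PowerSeries.C (7 : ℤ) * B = PowerSeries.C (12 : ℤ) * C := by
  ext n
  rw [map_add, PowerSeries.coeff_C_mul, PowerSeries.coeff_C_mul, PowerSeries.coeff_C_mul, A, B, C,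
    PowerSeries.coeff_mk, PowerSeries.coeff_mk, PowerSeries.coeff_mk]
  exact (Int.mul_ediv_cancel' (twelve_dvd_sigma n)).symm

theorem e4_cube_sub_e6_sq :
    e4 ^ 3 - e6 ^ 2 =
      PowerSeries.C (1728 : ℤ) * (C + 100 * A ^ 2 + 8000 * A ^ 3 - 147 * B ^ 2) := by
  have h := five_A_add_seven_B
  rw [e4_eq, e6_eq]
  simp only [map_ofNat] at h ⊢
  linear_combination 144 * h

theorem qExpansion_E4 : qExpansion 1 E₄ = e4.map (Int.castRingHom ℂ) := by
  ext n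
  rw [E4_coeff', PowerSeries.coeff_map, e4, PowerSeries.coeff_mk]
  split_ifs <;> simp

theorem qExpansion_E6 : qExpansion 1 E₆ = e6.map (Int.castRingHom ℂ) := by
  ext n
  rw [E6_coeff', PowerSeries.coeff_map, e6, PowerSeries.coeff_mk]
  split_ifs <;> simp

end TauAux

/-- Integrality of the `q`-expansion of `Δ`. -/
theorem exists_tau' : ∃ t : ℕ → ℤ, ∀ n : ℕ,
    (qExpansion 1 ModularForm.discriminant).coeff n = (t n : ℂ) := by
  refine ⟨fun n => PowerSeries.coeff n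
    (TauAux.C + 100 * TauAux.A ^ 2 + 8000 * TauAux.A ^ 3 - 147 * TauAux.B ^ 2), fun n => ?_⟩
  have h := Fermat.Agent.S23.LevelOneAux.qExpansion_discriminant
  rw [TauAux.qExpansion_E4, TauAux.qExpansion_E6, ← map_pow, ← map_pow, ← map_sub,
    TauAux.e4_cube_sub_e6_sq] at h
  have hn := congrArg (PowerSeries.coeff n) h
  rw [PowerSeries.coeff_smul, PowerSeries.coeff_map, PowerSeries.coeff_C_mul, smul_eq_mul] at hn
  have h1728 : (1728 : ℂ) ≠ 0 := by norm_num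
  apply mul_left_cancel₀ h1728
  rw [hn]
  simp

end Fermat.Agent.S16.LV1
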