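import Mathlib
import Fermat.Agent.S16.LV1.Eis
import Fermat.Agent.S16.LV1.Tau

/-!
# S16 / LV1 / Sturm: the level-one Sturm bound modulo an additive subgroup `J ⊆ ℂ`
(statement frozen by helper1; one worker).

Proof (strong induction on `K.toNat`; the hypothesis is on the `i` with `12 i ≤ K`).  `K < 0`: `F = 0` (`ModularForm.levelOne_neg_weight_eq_zero`).
`K = 4 m ≥ 0`: `E := mcast _ (E₄.pow m) : ModularForm 𝒮ℒ K` has a `q`-expansion with integer
coefficients and constant term `1` (`E4_coeff'`, `ModularForm.qExpansion_pow`).  Put `c = a₀(F) ∈ J`,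
`F' = F - c • E`: `a₀(F') = 0` and `a_i(F') ∈ J` for `i ≤ K / 12` (integer multiples of `c` are in `J`).
`G := CuspForm.discriminantEquiv (ModularForm.toCuspForm F' h0) : ModularForm 𝒮ℒ (K - 12)` satisfies
`qExpansion 1 F' = qExpansion 1 Δ * qExpansion 1 G`
(`ModularForm.qExpansion_eq_qExpansion_discriminant_mul`), and `Δ = q + …` has integer coefficients
`t n` (`exists_tau'`, `ModularForm.discriminant_qExpansion_coeff_one`, coefficient `0` is `0`).
Power-series lemma: if `P' = D * Q` with `D` integral, `D₀ = 0`, `D₁ = 1`, then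
(i) `P'_i ∈ J` for all `i` with `12 i ≤ K` implies `Q_i ∈ J` for all `i` with `12 (i + 1) ≤ K`, i.e.
`12 i ≤ K - 12` (strong induction on `i`: `Q_i = P'_{i+1} - ∑_{a ≥ 2} D_a Q_{i+1-a}`), and
(ii) `Q_i ∈ J` for all `i` implies `P'_i ∈ J` for all `i`.
If `K < 12` then `G = 0` (negative weight), so `F = c • E`.  If `K ≥ 12`: (i) gives the hypothesis for
`G` (weight `K - 12`, still divisible by `4`, `(K - 12).toNat < K.toNat`), the induction hypothesis
gives all `a_i(G) ∈ J`, (ii) all `a_i(F') ∈ J`, hence all `a_i(F) = a_i(F') + c * a_i(E) ∈ J`.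
-/

set_option autoImplicit false

open UpperHalfPlane ModularForm ModularFormClass MatrixGroups EisensteinSeries

namespace Fermat.Agent.S16.LV1

namespace SturmAux

end SturmAux

/-- Level-one Sturm bound modulo an additive subgroup `J` of `ℂ`, for weights divisible by `4`:
if the `q`-coefficients `a_i` with `12 i ≤ K` lie in `J`, then all of them do. -/
theorem sturm_mod_le (J : AddSubgroup ℂ) {K : ℤ} (hK : (4 : ℤ) ∣ K) (F : ModularForm 𝒮ℒ K)
    (h : ∀ i : ℕ, 12 * (i : ℤ) ≤ K → (qExpansion 1 F).coeff i ∈ J) (i : ℕ) :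
    (qExpansion 1 F).coeff i ∈ J := by
  sorry

end Fermat.Agent.S16.LV1
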